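/-
P-CFT / RECIP-Q row 1035 TR-UNRTRIV (helper2, second seat): the cochain/Galois GLUE.

* `ut_descend` (A): a 2-cocycle of `G_E` right-invariant under the kernel of
  `G_E → Gal(F/E)` (`F / E` finite Galois) is the inflation of a finite-level 2-cocycle;
* `ut_unit_coboundary` (C): a 2-cocycle of `Gal(unramExt q E m / E)` with unit values inflates
  to a level coboundary (cyclic normal form + INV-STD with `k = 0`);
* `ut_of_kernel`: (A) + (C);
* `unramTriv_of_kernel`: `UnramTrivStatement` from INV-STD and the arithmetic statement (B)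
  `UnramKernelStatement` (some `unramExt q E m` has `G_{unramExt} ≤ N`).
-/
import Fermat.Agent.H25.Recip.TraceInterfaces
import Fermat.Agent.H2.Hasse.SplitInfl

set_option autoImplicit false
set_option linter.style.haveILetI false
set_option linter.unusedSectionVars false
set_option synthInstance.maxHeartbeats 400000

namespace Fermat.Agent.H2

open Fermat.Agent.H13.Cft Fermat.Agent.H78.CFT Fermat.Agent.H61.CFT groupCohomology
open Fermat.Agent.H49.Unram Fermat.Agent.H81.Local Fermat.Agent.H25.Recip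

noncomputable section

/-- **(B)**, the arithmetic input of TR-UNRTRIV: an open normal subgroup of `G_ℚ` containing the
inertia group at `q` contains `G_{unramExt q E m}` for some `m > 0`. -/
def UnramKernelStatement : Prop :=
  ∀ (q : ℕ) [Fact q.Prime] (E : IntermediateField ℚ Qb), IsLocalFinite q E →
    ∀ N : Subgroup (Qb ≃ₐ[ℚ] Qb), N.Normal →
      (∃ F : IntermediateField ℚ Qb, FiniteDimensional ℚ F ∧ F.fixingSubgroup ≤ N) →
      (padicPlace q).inertiaSubgroupIn ℚ ≤ N →
      ∃ m : ℕ, 0 < m ∧ ∀ g : E.fixingSubgroup, resEF E (unramExt q E m) g = 1 →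
        (g : Qb ≃ₐ[ℚ] Qb) ∈ N

section descend

variable (E : IntermediateField ℚ Qb) (F : IntermediateField E Qb) [FiniteDimensional E F]
  [IsGalois E F]

/-- **(A)** a cocycle right-invariant under the kernel of `G_E → Gal(F/E)` is inflated. -/
theorem ut_descend (c : E.fixingSubgroup × E.fixingSubgroup → Qbˣ) (hcoc : IsMulCocycle₂E E c)
    (hinv : ∀ g h n m : E.fixingSubgroup, resEF E F n = 1 → resEF E F m = 1 →
      c (g * n, h * m) = c (g, h)) :
    ∃ c₁ : (F ≃ₐ[E] F) × (F ≃ₐ[E] F) → Fˣ, IsMulCocycle₂ c₁ ∧ inflE E F c₁ = c := by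
  have i1 : ∀ g h, ∀ s, resEF E F s = 1 → c (g * s, h) = c (g, h) := by
    intro g h s hs
    have := hinv g h s 1 hs (map_one _)
    rwa [mul_one] at this
  have i2 : ∀ g h, ∀ s, resEF E F s = 1 → c (g, h * s) = c (g, h) := by
    intro g h s hs
    have := hinv g h 1 s (map_one _) hs
    rwa [mul_one] at this
  have h11 : ∀ x, c (1, x) = c (1, 1) := by
    intro x
    have := hcoc 1 1 x
    rw [mul_one, one_mul] at this
    have h2 : actU ((1 : E.fixingSubgroup) : Qb ≃ₐ[ℚ] Qb) (c (1, x)) = c (1, x) := rfl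
    rw [h2] at this
    exact (mul_left_cancel this).symm
  refine si_descend E F c hcoc i1 i2 ?_
  intro g h s hs
  have := hcoc s g h
  have e1 : s * g = g * (g⁻¹ * s * g) := by group
  have hs' : resEF E F (g⁻¹ * s * g) = 1 := by
    rw [map_mul, map_mul, hs, mul_one, map_inv, inv_mul_cancel]
  have e2 : c (s, g) = c (1, 1) := by
    have := i1 1 g s hs
    rw [one_mul] at this
    rw [this, h11]
  have e3 : c (s, g * h) = c (1, 1) := by
    have := i1 1 (g * h) s hs
    rw [one_mul] at this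
    rw [this, h11]
  rw [e1, i1 g h _ hs', e2, e3] at this
  exact (mul_right_cancel this).symm

end descend

section std

variable {G M : Type*} [Group G] [CommGroup M] [MulDistribMulAction G M]

/-- helper61's normal form with the explicit invariant `cocInv`. -/
theorem ut_std_cohomologous {g : G} (hg : IsGen g) {f : G × G → M} (hf : IsMulCocycle₂ f) :
    IsMulCoboundary₂ (fun p => f p / stdCocycle g (cocInv g f) p) := by
  refine ⟨fun x => cocY g f (dlog g x), fun x y => ?_⟩
  have h1 := cocycle_eq_cocY hf (g := g) (dlog g x) (dlog g y)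
  rw [hg.pow_dlog, hg.pow_dlog] at h1
  have h2 := cocY_eq g f (dlog g x + dlog g y)
  simp only [stdCocycle_apply]
  rw [hg.dlog_mul, h1, h2]
  exact cg_id3 _ _ _ _

end std

/-- **(C)** a finite-level 2-cocycle of the unramified extension of degree `m` with unit values
inflates to a level coboundary. -/
theorem ut_unit_coboundary (hstd : UnramCocycleStatement) (q : ℕ) [Fact q.Prime]
    (E : IntermediateField ℚ Qb) (hE : IsLocalFinite q E) (m : ℕ)
    (φ : unramExt q E m ≃ₐ[E] unramExt q E m) (hφ : IsFrobE q E m φ)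
    (c₁ : (unramExt q E m ≃ₐ[E] unramExt q E m) × (unramExt q E m ≃ₐ[E] unramExt q E m) →
      (unramExt q E m)ˣ)
    (hc₁ : IsMulCocycle₂ c₁)
    (hunit : ∀ x, qVal q (((c₁ x : (unramExt q E m)ˣ) : unramExt q E m) : Qb) = 1) :
    IsLvlMulCoboundary₂E E (inflE E (unramExt q E m) c₁) := by
  haveI := hφ.finiteDimensional
  haveI := hφ.isGalois
  have hgen : IsGen φ := isGen_of_forall_mem_zpowers hφ.gen
  have hfix : φ • cocInv φ c₁ = cocInv φ c₁ := smul_cocInv hc₁
  obtain ⟨a₀, ha₀⟩ := exists_unitsIncl_of_fixed hgen hfix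
  have hval : qVal q ((a₀ : E) : Qb) = 1 := by
    have h1 : ((a₀ : E) : Qb) =
        (((cocInv φ c₁ : (unramExt q E m)ˣ) : unramExt q E m) : Qb) := by
      rw [← ha₀]
      rfl
    rw [h1]
    simp only [cocInv, cocX, Units.coe_prod]
    rw [show ((∏ k ∈ Finset.range (orderOf φ), ((c₁ (φ ^ k, φ) : (unramExt q E m)ˣ) :
        unramExt q E m) : unramExt q E m) : Qb) =
        ∏ k ∈ Finset.range (orderOf φ), (((c₁ (φ ^ k, φ) : (unramExt q E m)ˣ) :
          unramExt q E m) : Qb) from map_prod (algebraMap (unramExt q E m) Qb) _ _]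
    rw [map_prod]
    exact Finset.prod_eq_one (fun k _ => hunit _)
  obtain ⟨π, hπ⟩ := exists_unif_unit hE
  have h2 : IsLvlMulCoboundary₂E E (unramCocycle q E m φ a₀) :=
    (hstd q E hE m φ hφ π a₀ 0 hπ (by rw [hval, zpow_zero])).2 (dvd_zero _)
  have h3 : IsLvlMulCoboundary₂E E
      (inflE E (unramExt q E m) (fun p => c₁ p / stdCocycle φ (cocInv φ c₁) p)) :=
    inflCoboundary E (unramExt q E m) _ (ut_std_cohomologous hgen hc₁)
  have h4 := IsLvlMulCoboundary₂E.mul h3 h2
  refine Fermat.Agent.H97.Hasse.isLvlMulCoboundary₂E_congr ?_ h4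
  funext x
  show Units.map _ (c₁ _ / stdCocycle φ (cocInv φ c₁) _) *
      Units.map _ (stdCocycle φ (unitOfE q E m a₀) _) = Units.map _ (c₁ _)
  have h5 : unitOfE q E m a₀ = cocInv φ c₁ := ha₀
  rw [h5, ← map_mul, div_mul_cancel]

/-- (A) + (C): a unit-valued 2-cocycle of `G_E` right-invariant under `G_{unramExt q E m}` is a
level coboundary. -/
theorem ut_of_kernel (hstd : UnramCocycleStatement) (q : ℕ) [Fact q.Prime]
    (E : IntermediateField ℚ Qb) (hE : IsLocalFinite q E) (m : ℕ) (hm : 0 < m)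
    (c : E.fixingSubgroup × E.fixingSubgroup → Qbˣ) (hcoc : IsMulCocycle₂E E c)
    (hinv : ∀ g h n k : E.fixingSubgroup, resEF E (unramExt q E m) n = 1 →
      resEF E (unramExt q E m) k = 1 → c (g * n, h * k) = c (g, h))
    (hunit : ∀ x, qVal q ((c x : Qbˣ) : Qb) = 1) : IsLvlMulCoboundary₂E E c := by
  obtain ⟨φ, hφ⟩ := exists_isFrobE hE hm
  haveI := hφ.finiteDimensional
  haveI := hφ.isGalois
  obtain ⟨c₁, hc₁, hinfl⟩ := ut_descend E (unramExt q E m) c hcoc hinv
  rw [← hinfl]
  refine ut_unit_coboundary hstd q E hE m φ hφ c₁ hc₁ ?_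
  rintro ⟨σ, τ⟩
  obtain ⟨g, rfl⟩ := Fermat.Agent.H75.Inf2.resEF_surjective E (unramExt q E m) σ
  obtain ⟨h, rfl⟩ := Fermat.Agent.H75.Inf2.resEF_surjective E (unramExt q E m) τ
  have := hunit (g, h)
  rw [← hinfl] at this
  exact this

/-- **[TR-UNRTRIV]** from INV-STD and the arithmetic statement (B). -/
theorem unramTriv_of_kernel (hstd : UnramCocycleStatement) (hB : UnramKernelStatement) :
    UnramTrivStatement := by
  intro q _ E hE c hcoc hN hunit
  obtain ⟨N, hNn, hNF, hNI, hNinv⟩ := hN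
  obtain ⟨m, hm, hker⟩ := hB q E hE N hNn hNF hNI
  exact ut_of_kernel hstd q E hE m hm c hcoc
    (fun g h n k hn hk => hNinv g h n k (hker n hn) (hker k hk)) hunit

end

end Fermat.Agent.H2
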